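import Mathlib
import Fermat.Agent.MUL.Orig.Lib.EllRed.Res
import Fermat.Agent.MUL.Orig.S05.H75.KerRed
import Fermat.Agent.MUL.Orig.S05.H5.Sing

section MergeWrap_Lib_EllRed_Basic -- from Lib/EllRed/Basic.lean

set_option autoImplicit false

namespace Fermat.Agent.EllRed

open WeierstrassCurve WeierstrassCurve.Affine IsLocalRing

variable {K : Type*} [Field K] (A : ValuationSubring K)

/-- `Ek` is the reduction of `E` modulo the valuation subring `A`: the coefficients of `E` lie in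
`A` and their residues are the coefficients of `Ek`. -/
structure IsReduction (E : Affine K) (Ek : Affine (ResidueField A)) : Prop where
  mem_a₁ : E.a₁ ∈ A
  mem_a₂ : E.a₂ ∈ A
  mem_a₃ : E.a₃ ∈ A
  mem_a₄ : E.a₄ ∈ A
  mem_a₆ : E.a₆ ∈ A
  res_a₁ : res A E.a₁ = Ek.a₁
  res_a₂ : res A E.a₂ = Ek.a₂
  res_a₃ : res A E.a₃ = Ek.a₃
  res_a₄ : res A E.a₄ = Ek.a₄
  res_a₆ : res A E.a₆ = Ek.a₆

variable {A} {E : Affine K} {Ek : Affine (ResidueField A)}

namespace IsReduction

variable (h : IsReduction A E Ek)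
include h

/-- The integral model over `A`. -/
def intModel : Affine A :=
  { a₁ := ⟨E.a₁, h.mem_a₁⟩
    a₂ := ⟨E.a₂, h.mem_a₂⟩
    a₃ := ⟨E.a₃, h.mem_a₃⟩
    a₄ := ⟨E.a₄, h.mem_a₄⟩
    a₆ := ⟨E.a₆, h.mem_a₆⟩ }

lemma intModel_map_subtype : (h.intModel).map A.subtype = E := rfl

lemma intModel_map_subtype' : WeierstrassCurve.map (h.intModel) A.subtype = E := rfl

lemma intModel_map_residue : (h.intModel).map (residue A) = Ek := by
  ext
  · show residue A ⟨E.a₁, h.mem_a₁⟩ = _
    rw [← res_of_mem, h.res_a₁]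
  · show residue A ⟨E.a₂, h.mem_a₂⟩ = _
    rw [← res_of_mem, h.res_a₂]
  · show residue A ⟨E.a₃, h.mem_a₃⟩ = _
    rw [← res_of_mem, h.res_a₃]
  · show residue A ⟨E.a₄, h.mem_a₄⟩ = _
    rw [← res_of_mem, h.res_a₄]
  · show residue A ⟨E.a₆, h.mem_a₆⟩ = _
    rw [← res_of_mem, h.res_a₆]

lemma intModel_map_residue' : WeierstrassCurve.map (h.intModel) (residue A) = Ek :=
  h.intModel_map_residue

lemma val_a₁ : A.valuation E.a₁ ≤ 1 := (A.valuation_le_one_iff _).2 h.mem_a₁
lemma val_a₂ : A.valuation E.a₂ ≤ 1 := (A.valuation_le_one_iff _).2 h.mem_a₂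
lemma val_a₃ : A.valuation E.a₃ ≤ 1 := (A.valuation_le_one_iff _).2 h.mem_a₃
lemma val_a₄ : A.valuation E.a₄ ≤ 1 := (A.valuation_le_one_iff _).2 h.mem_a₄
lemma val_a₆ : A.valuation E.a₆ ≤ 1 := (A.valuation_le_one_iff _).2 h.mem_a₆

lemma mem_b₂ : E.b₂ ∈ A := by
  have h1 := h.mem_a₁; have h2 := h.mem_a₂
  have h4 : (4 : K) ∈ A := ofNat_mem A 4
  simp only [WeierstrassCurve.b₂]
  exact add_mem (pow_mem h1 2) (mul_mem h4 h2)

lemma mem_b₄ : E.b₄ ∈ A := by
  have h1 := h.mem_a₁; have h3 := h.mem_a₃; have h4 := h.mem_a₄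
  have h2 : (2 : K) ∈ A := ofNat_mem A 2
  simp only [WeierstrassCurve.b₄]
  exact add_mem (mul_mem h2 h4) (mul_mem h1 h3)

lemma mem_b₆ : E.b₆ ∈ A := by
  have h3 := h.mem_a₃; have h6 := h.mem_a₆
  have h4 : (4 : K) ∈ A := ofNat_mem A 4
  simp only [WeierstrassCurve.b₆]
  exact add_mem (pow_mem h3 2) (mul_mem h4 h6)

lemma mem_b₈ : E.b₈ ∈ A := by
  have h1 := h.mem_a₁; have h2 := h.mem_a₂; have h3 := h.mem_a₃; have h4 := h.mem_a₄
  have h6 := h.mem_a₆
  have h4' : (4 : K) ∈ A := ofNat_mem A 4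
  simp only [WeierstrassCurve.b₈]
  exact sub_mem (add_mem (sub_mem (add_mem (mul_mem (pow_mem h1 2) h6)
    (mul_mem (mul_mem h4' h2) h6)) (mul_mem (mul_mem h1 h3) h4)) (mul_mem h2 (pow_mem h3 2)))
    (pow_mem h4 2)

lemma val_b₂ : A.valuation E.b₂ ≤ 1 := (A.valuation_le_one_iff _).2 h.mem_b₂
lemma val_b₄ : A.valuation E.b₄ ≤ 1 := (A.valuation_le_one_iff _).2 h.mem_b₄
lemma val_b₆ : A.valuation E.b₆ ≤ 1 := (A.valuation_le_one_iff _).2 h.mem_b₆
lemma val_b₈ : A.valuation E.b₈ ≤ 1 := (A.valuation_le_one_iff _).2 h.mem_b₈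

/-- Integrality of the `y`-coordinate of a point with integral `x`-coordinate. -/
lemma mem_y {x y : K} (hxy : E.Equation x y) (hx : x ∈ A) : y ∈ A :=
  (A.valuation_le_one_iff _).1 <|
    S05H5.v_y_le_one A.valuation E h.val_a₁ h.val_a₂ h.val_a₃ h.val_a₄ h.val_a₆ hxy
      ((A.valuation_le_one_iff _).2 hx)

/-- The equation of the curve reduces. -/
lemma equation_res {x y : K} (hxy : E.Equation x y) (hx : x ∈ A) (hy : y ∈ A) :
    Ek.Equation (res A x) (res A y) := by
  have h1 : (h.intModel).Equation (⟨x, hx⟩ : A) (⟨y, hy⟩ : A) := by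
    rw [← Affine.map_equation (W := h.intModel) (f := A.subtype) Subtype.val_injective]
    exact hxy
  have h2 := Affine.Equation.map (residue A) h1
  rw [h.intModel_map_residue] at h2
  rwa [res_of_mem hx, res_of_mem hy]

/-- The discriminant reduces. -/
lemma res_Δ : res A E.Δ = Ek.Δ := by
  have h1 : (h.intModel.Δ : K) = E.Δ := by
    have := WeierstrassCurve.map_Δ (h.intModel) A.subtype
    rw [h.intModel_map_subtype'] at this
    exact this.symm
  have h2 : residue A h.intModel.Δ = Ek.Δ := by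
    have := WeierstrassCurve.map_Δ (h.intModel) (residue A)
    rw [h.intModel_map_residue'] at this
    exact this.symm
  rw [← h1, res_coe, h2]

lemma mem_Δ : E.Δ ∈ A := by
  have h1 : (h.intModel.Δ : K) = E.Δ := by
    have := WeierstrassCurve.map_Δ (h.intModel) A.subtype
    rw [h.intModel_map_subtype'] at this
    exact this.symm
  rw [← h1]
  exact (h.intModel.Δ).2

lemma val_Δ_eq_one (hΔ : Ek.Δ ≠ 0) : A.valuation E.Δ = 1 := by
  rw [← res_ne_zero_iff h.mem_Δ, h.res_Δ]
  exact hΔ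

/-- With good reduction, every integral point reduces to a nonsingular point. -/
lemma nonsingular_res (hΔ : Ek.Δ ≠ 0) {x y : K} (hxy : E.Equation x y) (hx : x ∈ A) (hy : y ∈ A) :
    Ek.Nonsingular (res A x) (res A y) :=
  (Affine.equation_iff_nonsingular_of_Δ_ne_zero hΔ).1 (h.equation_res hxy hx hy)

end IsReduction

end Fermat.Agent.EllRed
end MergeWrap_Lib_EllRed_Basic

section MergeWrap_Lib_EllRed_Red -- from Lib/EllRed/Red.lean

set_option autoImplicit false
set_option linter.unusedSectionVars false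

namespace Fermat.Agent.EllRed

open WeierstrassCurve WeierstrassCurve.Affine IsLocalRing S05H65 S05H75

variable {K : Type*} [Field K] [DecidableEq K] {A : ValuationSubring K}
  {E : Affine K} {Ek : Affine (ResidueField A)}

/-- The reduction of a point: the origin and the points with non-integral `x`-coordinate go to
the origin, the integral points are reduced coordinatewise. -/
noncomputable def red (h : IsReduction A E Ek) (hΔ : Ek.Δ ≠ 0) : E.Point → Ek.Point
  | .zero => .zero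
  | .some x y hxy =>
      open Classical in
      if hx : x ∈ A then
        .some (res A x) (res A y) (h.nonsingular_res hΔ hxy.1 hx (h.mem_y hxy.1 hx))
      else .zero

variable (h : IsReduction A E Ek) (hΔ : Ek.Δ ≠ 0)

@[simp] lemma red_zero : red h hΔ 0 = 0 := rfl

lemma red_some_of_mem {x y : K} (hxy : E.Nonsingular x y) (hx : x ∈ A) :
    red h hΔ (.some x y hxy)
      = .some (res A x) (res A y) (h.nonsingular_res hΔ hxy.1 hx (h.mem_y hxy.1 hx)) := by
  simp only [red, dif_pos hx]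

lemma red_some_of_not_mem {x y : K} (hxy : E.Nonsingular x y) (hx : x ∉ A) :
    red h hΔ (.some x y hxy) = 0 := by
  simp only [red, dif_neg hx]
  rfl

/-- A point is *integral* if it is affine with integral `x`-coordinate. -/
def IsInt (A : ValuationSubring K) (P : E.Point) : Prop :=
  ∃ (x y : K) (hxy : E.Nonsingular x y), P = .some x y hxy ∧ x ∈ A

omit h hΔ in
lemma isInt_some {x y : K} (hxy : E.Nonsingular x y) :
    IsInt A (Point.some x y hxy) ↔ x ∈ A := by
  constructor
  · rintro ⟨x', y', hxy', heq, hx'⟩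
    rw [Point.some.injEq] at heq
    rw [heq.1]
    exact hx'
  · intro hx
    exact ⟨x, y, hxy, rfl, hx⟩

omit h hΔ in
lemma not_isInt_zero : ¬ IsInt A (0 : E.Point) := by
  rintro ⟨x, y, hxy, heq, -⟩
  exact Point.some_ne_zero hxy heq.symm

omit h hΔ in
/-- Every point is integral or in the kernel of reduction. -/
lemma isInt_or_inG1 (P : E.Point) : IsInt A P ∨ InG1 A.valuation P := by
  rcases P with _ | ⟨x, y, hxy⟩
  · right; left; rfl
  · by_cases hx : x ∈ A
    · left; exact ⟨x, y, hxy, rfl, hx⟩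
    · right; right
      rw [px_some]
      rw [← A.valuation_le_one_iff] at hx
      exact not_le.mp hx

omit h hΔ in
lemma not_isInt_iff_inG1 (P : E.Point) : ¬ IsInt A P ↔ InG1 A.valuation P := by
  constructor
  · intro hP
    exact (isInt_or_inG1 P).resolve_left hP
  · rintro (rfl | hv) hint
    · exact not_isInt_zero hint
    · obtain ⟨x, y, hxy, rfl, hx⟩ := hint
      rw [px_some] at hv
      rw [← A.valuation_le_one_iff] at hx
      exact absurd hx (not_le.mpr hv)

/-- The kernel of reduction is `G1`. -/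
lemma red_eq_zero_iff (P : E.Point) : red h hΔ P = 0 ↔ InG1 A.valuation P := by
  rcases P with _ | ⟨x, y, hxy⟩
  · constructor
    · intro _; left; rfl
    · intro _; rfl
  · by_cases hx : x ∈ A
    · rw [red_some_of_mem h hΔ hxy hx]
      constructor
      · intro h0
        exact absurd h0 (Point.some_ne_zero _)
      · intro hG
        exact absurd ⟨x, y, hxy, rfl, hx⟩ ((not_isInt_iff_inG1 _).mpr hG)
    · rw [red_some_of_not_mem h hΔ hxy hx]
      constructor
      · intro _
        exact (not_isInt_iff_inG1 _).mp (fun hint => hx ((isInt_some hxy).mp hint))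
      · intro _; rfl

lemma red_ne_zero_of_isInt {P : E.Point} (hP : IsInt A P) : red h hΔ P ≠ 0 := by
  intro h0
  exact (not_isInt_iff_inG1 P).mpr ((red_eq_zero_iff h hΔ P).mp h0) hP

include h in
/-- Reduction of `negY`. -/
lemma res_negY {x y : K} (hx : x ∈ A) (hy : y ∈ A) :
    res A (E.negY x y) = Ek.negY (res A x) (res A y) := by
  simp only [negY]
  rw [res_sub (sub_mem (neg_mem hy) (mul_mem h.mem_a₁ hx)) h.mem_a₃,
    res_sub (neg_mem hy) (mul_mem h.mem_a₁ hx), res_neg hy, res_mul h.mem_a₁ hx,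
    h.res_a₁, h.res_a₃]

include h in
lemma mem_negY {x y : K} (hx : x ∈ A) (hy : y ∈ A) : E.negY x y ∈ A := by
  simp only [negY]
  exact sub_mem (sub_mem (neg_mem hy) (mul_mem h.mem_a₁ hx)) h.mem_a₃

variable [DecidableEq (ResidueField A)]

omit h hΔ in
lemma isInt_neg {P : E.Point} (hP : IsInt A P) : IsInt A (-P) := by
  obtain ⟨x, y, hxy, rfl, hx⟩ := hP
  rw [Point.neg_some]
  exact (isInt_some _).mpr hx

/-- Reduction commutes with negation. -/
lemma red_neg (P : E.Point) : red h hΔ (-P) = -red h hΔ P := by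
  rcases P with _ | ⟨x, y, hxy⟩
  · rfl
  · by_cases hx : x ∈ A
    · have hy : y ∈ A := h.mem_y hxy.1 hx
      rw [Point.neg_some, red_some_of_mem h hΔ _ hx, red_some_of_mem h hΔ hxy hx, Point.neg_some,
        Point.some.injEq]
      exact ⟨rfl, res_negY h hx hy⟩
    · rw [Point.neg_some, red_some_of_not_mem h hΔ _ hx, red_some_of_not_mem h hΔ hxy hx,
        neg_zero]

end Fermat.Agent.EllRed
end MergeWrap_Lib_EllRed_Red

section MergeWrap_Lib_EllRed_Add -- from Lib/EllRed/Add.lean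

set_option autoImplicit false
set_option linter.unusedSectionVars false

namespace Fermat.Agent.EllRed

open WeierstrassCurve WeierstrassCurve.Affine IsLocalRing S05H65 S05H75

section Formula

/-- The numerator of the slope of the chord, in the form that survives `x₁ = x₂`. -/
def slopeNum {R : Type*} [CommRing R] (W : Affine R) (x₁ x₂ y₁ : R) : R :=
  x₁ ^ 2 + x₁ * x₂ + x₂ ^ 2 + W.a₂ * (x₁ + x₂) + W.a₄ - W.a₁ * y₁

lemma map_slopeNum {R S : Type*} [CommRing R] [CommRing S] (W : Affine R) (f : R →+* S)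
    (x₁ x₂ y₁ : R) :
    slopeNum (WeierstrassCurve.map W f) (f x₁) (f x₂) (f y₁) = f (slopeNum W x₁ x₂ y₁) := by
  simp only [slopeNum, WeierstrassCurve.map, map_add, map_sub, map_mul, map_pow]

variable {F : Type*} [Field F] [DecidableEq F] {W : Affine F}

/-- `slope * (y₁ - negY x₂ y₂) = slopeNum`. -/
lemma slope_mul_sub_negY {x₁ x₂ y₁ y₂ : F} (h₁ : W.Equation x₁ y₁) (h₂ : W.Equation x₂ y₂)
    (hxy : ¬(x₁ = x₂ ∧ y₁ = W.negY x₂ y₂)) :
    W.slope x₁ x₂ y₁ y₂ * (y₁ - W.negY x₂ y₂) = slopeNum W x₁ x₂ y₁ := by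
  by_cases hx : x₁ = x₂
  · have hy : y₁ ≠ W.negY x₂ y₂ := fun hy => hxy ⟨hx, hy⟩
    have hyy : y₁ = y₂ := Y_eq_of_Y_ne h₁ h₂ hx hy
    subst hx
    subst hyy
    rw [slope_of_Y_ne rfl hy, div_mul_cancel₀ _ (sub_ne_zero.mpr hy)]
    simp only [slopeNum]
    ring
  · rw [slope_of_X_ne hx]
    have hx' : x₁ - x₂ ≠ 0 := sub_ne_zero.mpr hx
    rw [equation_iff] at h₁ h₂
    rw [div_mul_eq_mul_div, div_eq_iff hx']
    simp only [slopeNum, negY]
    linear_combination h₁ - h₂

lemma slope_mul_sub_X {x₁ x₂ y₁ y₂ : F} (hx : x₁ ≠ x₂) :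
    W.slope x₁ x₂ y₁ y₂ * (x₁ - x₂) = y₁ - y₂ := by
  rw [slope_of_X_ne hx, div_mul_cancel₀ _ (sub_ne_zero.mpr hx)]

end Formula

variable {K : Type*} [Field K] [DecidableEq K] {A : ValuationSubring K}
  {E : Affine K} {Ek : Affine (ResidueField A)} [DecidableEq (ResidueField A)]

variable (h : IsReduction A E Ek)

include h in
lemma equation_intModel {x y : A} (hxy : E.Equation (x : K) (y : K)) :
    (h.intModel).Equation x y := by
  rw [← Affine.map_equation (W := h.intModel) (f := A.subtype) Subtype.val_injective]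
  exact hxy

include h in
lemma equation_residue {x y : A} (hxy : E.Equation (x : K) (y : K)) :
    Ek.Equation (residue A x) (residue A y) := by
  have h2 := Affine.Equation.map (residue A) (equation_intModel h hxy)
  rwa [h.intModel_map_residue] at h2

include h in
lemma coe_negY (x y : A) : ((h.intModel.negY x y : A) : K) = E.negY x y := by
  have := Affine.map_negY (W' := h.intModel) (f := A.subtype) (x := x) (y := y)
  first | rw [h.intModel_map_subtype] at this | rw [h.intModel_map_subtype'] at this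
  exact this.symm

include h in
lemma residue_negY (x y : A) :
    residue A (h.intModel.negY x y) = Ek.negY (residue A x) (residue A y) := by
  have := Affine.map_negY (W' := h.intModel) (f := residue A) (x := x) (y := y)
  first | rw [h.intModel_map_residue] at this | rw [h.intModel_map_residue'] at this
  exact this.symm

include h in
lemma coe_slopeNum (x₁ x₂ y₁ : A) :
    ((slopeNum h.intModel x₁ x₂ y₁ : A) : K) = slopeNum E x₁ x₂ y₁ := by
  have := map_slopeNum h.intModel A.subtype x₁ x₂ y₁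
  first | rw [h.intModel_map_subtype] at this | rw [h.intModel_map_subtype'] at this
  exact this.symm

include h in
lemma residue_slopeNum (x₁ x₂ y₁ : A) :
    residue A (slopeNum h.intModel x₁ x₂ y₁)
      = slopeNum Ek (residue A x₁) (residue A x₂) (residue A y₁) := by
  have := map_slopeNum h.intModel (residue A) x₁ x₂ y₁
  first | rw [h.intModel_map_residue] at this | rw [h.intModel_map_residue'] at this
  exact this.symm

include h in
lemma coe_addX (x₁ x₂ l : A) : ((h.intModel.addX x₁ x₂ l : A) : K) = E.addX x₁ x₂ l := by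
  have := Affine.map_addX (W' := h.intModel) (f := A.subtype) (x₁ := x₁) (x₂ := x₂) (ℓ := l)
  first | rw [h.intModel_map_subtype] at this | rw [h.intModel_map_subtype'] at this
  exact this.symm

include h in
lemma residue_addX (x₁ x₂ l : A) :
    residue A (h.intModel.addX x₁ x₂ l) = Ek.addX (residue A x₁) (residue A x₂) (residue A l) := by
  have := Affine.map_addX (W' := h.intModel) (f := residue A) (x₁ := x₁) (x₂ := x₂) (ℓ := l)
  first | rw [h.intModel_map_residue] at this | rw [h.intModel_map_residue'] at this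
  exact this.symm

include h in
lemma coe_addY (x₁ x₂ y₁ l : A) :
    ((h.intModel.addY x₁ x₂ y₁ l : A) : K) = E.addY x₁ x₂ y₁ l := by
  have := Affine.map_addY (W' := h.intModel) (f := A.subtype) (x₁ := x₁) (x₂ := x₂) (y₁ := y₁)
    (ℓ := l)
  first | rw [h.intModel_map_subtype] at this | rw [h.intModel_map_subtype'] at this
  exact this.symm

include h in
lemma residue_addY (x₁ x₂ y₁ l : A) :
    residue A (h.intModel.addY x₁ x₂ y₁ l)
      = Ek.addY (residue A x₁) (residue A x₂) (residue A y₁) (residue A l) := by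
  have := Affine.map_addY (W' := h.intModel) (f := residue A) (x₁ := x₁) (x₂ := x₂) (y₁ := y₁)
    (ℓ := l)
  first | rw [h.intModel_map_residue] at this | rw [h.intModel_map_residue'] at this
  exact this.symm

include h in
/-- If the reductions are not opposite, the points are not opposite. -/
lemma not_opp_of_residue {x₁ y₁ x₂ y₂ : A}
    (hne : ¬(residue A x₁ = residue A x₂ ∧
      residue A y₁ = Ek.negY (residue A x₂) (residue A y₂))) :
    ¬((x₁ : K) = x₂ ∧ (y₁ : K) = E.negY x₂ y₂) := by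
  rintro ⟨e1, e2⟩
  apply hne
  have hx : x₁ = x₂ := Subtype.ext e1
  have hy : y₁ = h.intModel.negY x₂ y₂ := by
    apply Subtype.ext
    rw [e2, coe_negY h]
  refine ⟨by rw [hx], ?_⟩
  rw [← residue_negY h, ← hy]

omit [DecidableEq K] [DecidableEq (ResidueField A)] in
lemma isUnit_of_residue_ne_zero {d : A} (hd : residue A d ≠ 0) : IsUnit d := by
  by_contra hu
  apply hd
  rw [IsLocalRing.residue_eq_zero_iff]
  exact (IsLocalRing.mem_maximalIdeal d).mpr hu

include h in
/-- The slope of the chord/tangent through two integral points with non-opposite reductions is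
integral and reduces to the slope of the reductions. -/
theorem exists_slope_lift {x₁ y₁ x₂ y₂ : A}
    (h₁ : E.Equation (x₁ : K) (y₁ : K)) (h₂ : E.Equation (x₂ : K) (y₂ : K))
    (hne : ¬(residue A x₁ = residue A x₂ ∧
      residue A y₁ = Ek.negY (residue A x₂) (residue A y₂))) :
    ∃ lam : A, (lam : K) = E.slope x₁ x₂ y₁ y₂ ∧
      residue A lam = Ek.slope (residue A x₁) (residue A x₂) (residue A y₁) (residue A y₂) := by
  have hxyK := not_opp_of_residue h hne
  have k₁ := equation_residue h h₁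
  have k₂ := equation_residue h h₂
  by_cases hX : residue A x₁ = residue A x₂
  · have hY : residue A y₁ ≠ Ek.negY (residue A x₂) (residue A y₂) := fun hY => hne ⟨hX, hY⟩
    set D : A := y₁ - h.intModel.negY x₂ y₂ with hD
    have hDres : residue A D = residue A y₁ - Ek.negY (residue A x₂) (residue A y₂) := by
      rw [hD, map_sub, residue_negY h]
    have hDne : residue A D ≠ 0 := by
      rw [hDres]
      exact sub_ne_zero.mpr hY
    obtain ⟨u, hu⟩ := isUnit_of_residue_ne_zero hDne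
    have hDK : ((D : A) : K) = (y₁ : K) - E.negY x₂ y₂ := by
      rw [hD]
      push_cast
      rw [coe_negY h]
    have hDK0 : ((D : A) : K) ≠ 0 := by
      intro h0
      apply hDne
      have : D = 0 := Subtype.ext h0
      rw [this, map_zero]
    refine ⟨slopeNum h.intModel x₁ x₂ y₁ * ((u⁻¹ : Aˣ) : A), ?_, ?_⟩
    · have hinv : (((u⁻¹ : Aˣ) : A) : K) = ((D : A) : K)⁻¹ := by
        have h1 : ((u : A) : K) * (((u⁻¹ : Aˣ) : A) : K) = 1 := by
          rw [← MulMemClass.coe_mul, Units.mul_inv]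
          rfl
        rw [hu] at h1
        exact eq_inv_of_mul_eq_one_right h1
      push_cast
      rw [coe_slopeNum h, hinv, ← slope_mul_sub_negY h₁ h₂ hxyK, ← hDK,
        mul_assoc, mul_inv_cancel₀ hDK0, mul_one]
    · have hinv : residue A ((u⁻¹ : Aˣ) : A) = (residue A D)⁻¹ := by
        have h1 : residue A (u : A) * residue A ((u⁻¹ : Aˣ) : A) = 1 := by
          rw [← map_mul, Units.mul_inv, map_one]
        rw [hu] at h1
        exact eq_inv_of_mul_eq_one_right h1
      rw [map_mul, residue_slopeNum h, hinv, ← slope_mul_sub_negY k₁ k₂ hne, ← hDres,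
        mul_assoc, mul_inv_cancel₀ hDne, mul_one]
  · set D : A := x₁ - x₂ with hD
    have hDres : residue A D = residue A x₁ - residue A x₂ := by
      rw [hD, map_sub]
    have hDne : residue A D ≠ 0 := by
      rw [hDres]
      exact sub_ne_zero.mpr hX
    obtain ⟨u, hu⟩ := isUnit_of_residue_ne_zero hDne
    have hxK : (x₁ : K) ≠ x₂ := by
      intro e
      apply hX
      rw [Subtype.ext e]
    have hDK : ((D : A) : K) = (x₁ : K) - x₂ := by
      rw [hD]
      push_cast
      rfl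
    have hDK0 : ((D : A) : K) ≠ 0 := by
      rw [hDK]
      exact sub_ne_zero.mpr hxK
    refine ⟨(y₁ - y₂) * ((u⁻¹ : Aˣ) : A), ?_, ?_⟩
    · have hinv : (((u⁻¹ : Aˣ) : A) : K) = ((D : A) : K)⁻¹ := by
        have h1 : ((u : A) : K) * (((u⁻¹ : Aˣ) : A) : K) = 1 := by
          rw [← MulMemClass.coe_mul, Units.mul_inv]
          rfl
        rw [hu] at h1
        exact eq_inv_of_mul_eq_one_right h1
      push_cast
      rw [hinv, hDK, slope_of_X_ne hxK, div_eq_mul_inv]
    · have hinv : residue A ((u⁻¹ : Aˣ) : A) = (residue A D)⁻¹ := by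
        have h1 : residue A (u : A) * residue A ((u⁻¹ : Aˣ) : A) = 1 := by
          rw [← map_mul, Units.mul_inv, map_one]
        rw [hu] at h1
        exact eq_inv_of_mul_eq_one_right h1
      rw [map_mul, map_sub, hinv, hDres, slope_of_X_ne hX, div_eq_mul_inv]

variable (hΔ : Ek.Δ ≠ 0)

/-- **Generic addition.** -/
theorem red_add_of_ne {x₁ y₁ x₂ y₂ : K} (h₁ : E.Nonsingular x₁ y₁) (h₂ : E.Nonsingular x₂ y₂)
    (hx₁ : x₁ ∈ A) (hx₂ : x₂ ∈ A)
    (hne : ¬(res A x₁ = res A x₂ ∧ res A y₁ = Ek.negY (res A x₂) (res A y₂))) :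
    IsInt A (Point.some x₁ y₁ h₁ + Point.some x₂ y₂ h₂) ∧
      red h hΔ (Point.some x₁ y₁ h₁ + Point.some x₂ y₂ h₂)
        = red h hΔ (Point.some x₁ y₁ h₁) + red h hΔ (Point.some x₂ y₂ h₂) := by
  have hy₁ : y₁ ∈ A := h.mem_y h₁.1 hx₁
  have hy₂ : y₂ ∈ A := h.mem_y h₂.1 hx₂
  rw [res_of_mem hx₁, res_of_mem hx₂, res_of_mem hy₁, res_of_mem hy₂] at hne
  obtain ⟨lam, hlamK, hlamk⟩ := exists_slope_lift h (x₁ := ⟨x₁, hx₁⟩) (y₁ := ⟨y₁, hy₁⟩)
    (x₂ := ⟨x₂, hx₂⟩) (y₂ := ⟨y₂, hy₂⟩) h₁.1 h₂.1 hne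
  have hxyK : ¬(x₁ = x₂ ∧ y₁ = E.negY x₂ y₂) :=
    not_opp_of_residue h (x₁ := ⟨x₁, hx₁⟩) (y₁ := ⟨y₁, hy₁⟩) (x₂ := ⟨x₂, hx₂⟩)
      (y₂ := ⟨y₂, hy₂⟩) hne
  have hX3 : E.addX x₁ x₂ (E.slope x₁ x₂ y₁ y₂)
      = ((h.intModel.addX ⟨x₁, hx₁⟩ ⟨x₂, hx₂⟩ lam : A) : K) := by
    rw [coe_addX h, hlamK]
  have hY3 : E.addY x₁ x₂ y₁ (E.slope x₁ x₂ y₁ y₂)
      = ((h.intModel.addY ⟨x₁, hx₁⟩ ⟨x₂, hx₂⟩ ⟨y₁, hy₁⟩ lam : A) : K) := by
    rw [coe_addY h, hlamK]
  have hx₃ : E.addX x₁ x₂ (E.slope x₁ x₂ y₁ y₂) ∈ A := by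
    rw [hX3]
    exact Subtype.property _
  rw [Point.add_some hxyK]
  refine ⟨(isInt_some _).mpr hx₃, ?_⟩
  rw [red_some_of_mem h hΔ _ hx₃, red_some_of_mem h hΔ h₁ hx₁, red_some_of_mem h hΔ h₂ hx₂]
  have hne' : ¬(res A x₁ = res A x₂ ∧ res A y₁ = Ek.negY (res A x₂) (res A y₂)) := by
    rw [res_of_mem hx₁, res_of_mem hx₂, res_of_mem hy₁, res_of_mem hy₂]
    exact hne
  rw [Point.add_some hne', Point.some.injEq]
  constructor
  · rw [hX3, res_coe, residue_addX h, hlamk, res_of_mem hx₁, res_of_mem hx₂, res_of_mem hy₁,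
      res_of_mem hy₂]
  · rw [hY3, res_coe, residue_addY h, hlamk, res_of_mem hx₁, res_of_mem hx₂, res_of_mem hy₁,
      res_of_mem hy₂]

end Fermat.Agent.EllRed
end MergeWrap_Lib_EllRed_Add

section MergeWrap_Lib_EllRed_Opp -- from Lib/EllRed/Opp.lean

set_option autoImplicit false
set_option linter.unusedSectionVars false

namespace Fermat.Agent.EllRed

open WeierstrassCurve WeierstrassCurve.Affine IsLocalRing S05H65 S05H75

section Val

variable {K : Type*} [Field K] {Γ₀ : Type*} [LinearOrderedCommGroupWithZero Γ₀]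
  (v : Valuation K Γ₀)

lemma one_lt_val_of_mul {a b : K} (hab : v (a * b) = 1) (hb : v b < 1) : 1 < v a := by
  by_contra hle
  push Not at hle
  have h1 : v (a * b) ≤ v b := val_le_mul v hle le_rfl
  rw [hab] at h1
  exact absurd hb (not_lt.mpr h1)

lemma lt_sq_of_one_lt {c : Γ₀} (hc : 1 < c) : c < c ^ 2 := by
  have hc0 : 0 < c := lt_trans zero_lt_one hc
  calc c = 1 * c := (one_mul c).symm
    _ < c * c := mul_lt_mul_of_pos_right hc hc0
    _ = c ^ 2 := (pow_two c).symm

/-- If the slope is non-integral then so is the `x`-coordinate of the sum. -/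
lemma one_lt_val_addX {E : Affine K} (ha₁ : v E.a₁ ≤ 1) (ha₂ : v E.a₂ ≤ 1) {x₁ x₂ l : K}
    (hx₁ : v x₁ ≤ 1) (hx₂ : v x₂ ≤ 1) (hl : 1 < v l) : 1 < v (E.addX x₁ x₂ l) := by
  have hsq : v l < v (l ^ 2) := by
    rw [map_pow]
    exact lt_sq_of_one_lt hl
  have hrest : v (E.a₁ * l - E.a₂ - x₁ - x₂) ≤ v l := by
    refine v.map_sub_le (v.map_sub_le (v.map_sub_le ?_ ?_) ?_) ?_
    · exact val_le_mul v ha₁ le_rfl
    · exact ha₂.trans hl.le
    · exact hx₁.trans hl.le
    · exact hx₂.trans hl.le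
  have heq : E.addX x₁ x₂ l = l ^ 2 + (E.a₁ * l - E.a₂ - x₁ - x₂) := by
    simp only [addX]
    ring
  rw [heq, v.map_add_eq_of_lt_left (lt_of_le_of_lt hrest hsq)]
  exact lt_trans hl hsq

end Val

variable {K : Type*} [Field K] [DecidableEq K] {A : ValuationSubring K}
  {E : Affine K} {Ek : Affine (ResidueField A)} [DecidableEq (ResidueField A)]

variable (h : IsReduction A E Ek) (hΔ : Ek.Δ ≠ 0)

include h in
lemma mem_slopeNum {x₁ x₂ y₁ : K} (hx₁ : x₁ ∈ A) (hx₂ : x₂ ∈ A) (hy₁ : y₁ ∈ A) :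
    slopeNum E x₁ x₂ y₁ ∈ A := by
  have := coe_slopeNum h ⟨x₁, hx₁⟩ ⟨x₂, hx₂⟩ ⟨y₁, hy₁⟩
  rw [← this]
  exact Subtype.property _

include h in
lemma res_slopeNum {x₁ x₂ y₁ : K} (hx₁ : x₁ ∈ A) (hx₂ : x₂ ∈ A) (hy₁ : y₁ ∈ A) :
    res A (slopeNum E x₁ x₂ y₁) = slopeNum Ek (res A x₁) (res A x₂) (res A y₁) := by
  have := coe_slopeNum h ⟨x₁, hx₁⟩ ⟨x₂, hx₂⟩ ⟨y₁, hy₁⟩
  rw [← this, res_coe, residue_slopeNum h, res_of_mem hx₁, res_of_mem hx₂, res_of_mem hy₁]

include h hΔ in
/-- **Opposite reductions.** -/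
theorem inG1_add_of_opp {x₁ y₁ x₂ y₂ : K} (h₁ : E.Nonsingular x₁ y₁) (h₂ : E.Nonsingular x₂ y₂)
    (hx₁ : x₁ ∈ A) (hx₂ : x₂ ∈ A)
    (hopp : res A x₁ = res A x₂ ∧ res A y₁ = Ek.negY (res A x₂) (res A y₂)) :
    InG1 A.valuation (Point.some x₁ y₁ h₁ + Point.some x₂ y₂ h₂) := by
  have hy₁ : y₁ ∈ A := h.mem_y h₁.1 hx₁
  have hy₂ : y₂ ∈ A := h.mem_y h₂.1 hx₂
  by_cases hxyK : x₁ = x₂ ∧ y₁ = E.negY x₂ y₂
  · left
    exact Point.add_of_Y_eq hxyK.1 hxyK.2
  · right
    rw [Point.add_some hxyK, px_some]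
    have hnegY : E.negY x₂ y₂ ∈ A := mem_negY h hx₂ hy₂
    -- the two denominators are non-units
    have hD : A.valuation (y₁ - E.negY x₂ y₂) < 1 := by
      rw [← res_eq_zero_iff (sub_mem hy₁ hnegY), res_sub hy₁ hnegY, res_negY h hx₂ hy₂, hopp.2,
        sub_self]
    have hX : A.valuation (x₁ - x₂) < 1 := by
      rw [← res_eq_zero_iff (sub_mem hx₁ hx₂), res_sub hx₁ hx₂, hopp.1, sub_self]
    -- the slope is non-integral
    have hl : 1 < A.valuation (E.slope x₁ x₂ y₁ y₂) := by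
      have hns := h.nonsingular_res hΔ h₁.1 hx₁ hy₁
      rcases ((nonsingular_iff' _ _).mp hns).2 with hFx | hFy
      · -- the numerator `slopeNum` is a unit
        have hN : A.valuation (slopeNum E x₁ x₂ y₁) = 1 := by
          rw [← res_ne_zero_iff (mem_slopeNum h hx₁ hx₂ hy₁), res_slopeNum h hx₁ hx₂ hy₁,
            ← hopp.1]
          intro h0
          apply hFx
          simp only [slopeNum] at h0
          linear_combination -h0
        apply one_lt_val_of_mul A.valuation (b := y₁ - E.negY x₂ y₂) _ hD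
        rw [slope_mul_sub_negY h₁.1 h₂.1 hxyK, hN]
      · -- `y₁ - y₂` is a unit
        have hY : A.valuation (y₁ - y₂) = 1 := by
          rw [← res_ne_zero_iff (sub_mem hy₁ hy₂), res_sub hy₁ hy₂]
          intro h0
          apply hFy
          have e2 := hopp.2
          simp only [negY] at e2
          rw [← hopp.1] at e2
          linear_combination h0 + e2
        by_cases hx : x₁ = x₂
        · exfalso
          have hy : y₁ ≠ E.negY x₂ y₂ := fun hy => hxyK ⟨hx, hy⟩
          have hyy : y₁ = y₂ := Y_eq_of_Y_ne h₁.1 h₂.1 hx hy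
          rw [hyy, sub_self, map_zero] at hY
          exact zero_ne_one hY
        · apply one_lt_val_of_mul A.valuation (b := x₁ - x₂) _ hX
          rw [slope_mul_sub_X hx, hY]
    exact one_lt_val_addX A.valuation h.val_a₁ h.val_a₂ ((A.valuation_le_one_iff _).2 hx₁)
      ((A.valuation_le_one_iff _).2 hx₂) hl

end Fermat.Agent.EllRed
end MergeWrap_Lib_EllRed_Opp
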